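import Fermat.Agent.GenusCount.Reduced
import Fermat.Agent.Root.SummaryGenus

/-!
# Counting the ambiguous reduced forms

For `D = -4n` they are counted in `ThetaOne.Ambiguous`. For `D = -N`, `N ≡ 3 (mod 4)`, they
correspond to `N = u v`, `u < v` coprime: `(u, u, (u + v) / 4)` if `3 u ≤ v`, else
`((u + v) / 4, (v - u) / 2, (u + v) / 4)`.
-/

set_option autoImplicit false

noncomputable section

namespace FA.GenusCount

open FA.GaussComposition FA.OrderTheta

/-- The number `μ` of assigned characters of a discriminant. -/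
def genusNumber (D : ℤ) : ℕ :=
  if D % 4 = 1 ∨ D % 16 = 4 then (D.natAbs.primeFactors.erase 2).card
  else if D % 32 = 0 then (D.natAbs.primeFactors.erase 2).card + 2
  else (D.natAbs.primeFactors.erase 2).card + 1

section Odd

variable {N : ℕ} (hN : N % 4 = 3)
include hN

theorem split_facts {u : ℕ} (hu : u ∈ coprimeSplit N) :
    ∃ v w : ℕ, u * v = N ∧ 0 < u ∧ u < v ∧ u.Coprime v ∧ v = N / u ∧ u + v = 4 * w := by
  obtain ⟨hd, hlt, hc⟩ := Finset.mem_filter.1 hu
  have huv := Nat.mul_div_cancel' (Nat.mem_divisors.1 hd).1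
  refine ⟨N / u, (u + N / u) / 4, huv, Nat.pos_of_mem_divisors hd, hlt, hc, rfl, ?_⟩
  have h2 : u % 4 * ((N / u) % 4) % 4 = 3 := by rw [← Nat.mul_mod, huv, hN]
  have := Nat.mod_lt u (show 0 < 4 by norm_num)
  have := Nat.mod_lt (N / u) (show 0 < 4 by norm_num)
  have : (u + N / u) % 4 = 0 := by
    rw [Nat.add_mod]
    interval_cases hu4 : u % 4 <;> interval_cases hv4 : (N / u) % 4 <;> omega
  omega

theorem exists_form {u : ℕ} (hu : u ∈ coprimeSplit N) :
    ∃ f : Form (-(N : ℤ)), (Reduced f ∧ Ambiguous f) ∧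
      (if f.b = f.a then f.a else 2 * f.a - f.b).natAbs = u := by
  obtain ⟨v, w, huv, hu0, hlt, hcop, -, hw⟩ := split_facts hN hu
  have huvz : (u : ℤ) * v = N := by exact_mod_cast huv
  have hwz : (u : ℤ) + v = 4 * w := by exact_mod_cast hw
  have hcz : IsCoprime (u : ℤ) v := Nat.isCoprime_iff_coprime.2 hcop
  have h0 : (0 : ℤ) < u := by exact_mod_cast hu0
  by_cases h3 : 3 * u ≤ v
  · refine ⟨⟨u, u, w, by linear_combination (u : ℤ) * hwz - huvz, fun l hl h1 _ hlw => ?_,
      fun _ => h0⟩, ⟨⟨?_, ?_, fun _ => h0.le⟩, Or.inr (Or.inl ?_)⟩, ?_⟩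
    · refine (Nat.prime_iff_prime_int.1 hl).not_isUnit (hcz.isUnit_of_dvd' h1 ?_)
      rw [show (v : ℤ) = 4 * w - u by linarith]
      exact (hlw.mul_left 4).sub h1
    · exact (abs_of_pos h0).le
    · show (u : ℤ) ≤ w
      omega
    · exact abs_of_pos h0
    · simp
  · obtain ⟨b, hb⟩ : ∃ b, v = u + 2 * b := by
      have : u % 2 = 1 ∧ v % 2 = 1 := by
        rw [← Nat.odd_iff, ← Nat.odd_iff, ← Nat.odd_mul, huv, Nat.odd_iff]
        omega
      exact ⟨(v - u) / 2, by omega⟩
    have hbz : (v : ℤ) = u + 2 * b := by exact_mod_cast hb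
    refine ⟨⟨w, b, w, ?_, fun l hl h1 h2 _ => ?_, fun _ => by omega⟩,
      ⟨⟨?_, le_rfl, fun _ => Int.natCast_nonneg b⟩, Or.inr (Or.inr rfl)⟩, ?_⟩
    · rw [show (4 : ℤ) * w = 2 * u + 2 * b by linarith, ← huvz, hbz]
      have : (2 : ℤ) * w = u + b := by linarith
      linear_combination (-((u : ℤ) + b)) * this
    · refine (Nat.prime_iff_prime_int.1 hl).not_isUnit (hcz.isUnit_of_dvd' ?_ ?_)
      · rw [show (u : ℤ) = 2 * w - b by linarith]
        exact (h1.mul_left 2).sub h2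
      · rw [show (v : ℤ) = 2 * w + b by linarith]
        exact (h1.mul_left 2).add h2
    · show |(b : ℤ)| ≤ (w : ℤ)
      rw [Nat.abs_cast]
      omega
    · show (if (b : ℤ) = w then (w : ℤ) else 2 * w - b).natAbs = u
      rw [if_neg (by omega)]
      omega

theorem odd_of_form (f : Form (-(N : ℤ))) : ¬(2 : ℤ) ∣ f.b := fun ⟨k, hk⟩ => by
  have h := f.disc
  rw [hk] at h
  have : (4 : ℤ) ∣ (N : ℤ) := ⟨f.a * f.c - k ^ 2, by linear_combination h⟩
  omega

theorem split_of_form {f : Form (-(N : ℤ))} (hf : Reduced f) (ha : Ambiguous f) :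
    (if f.b = f.a then f.a else 2 * f.a - f.b).natAbs ∈ coprimeSplit N ∧
      (f.b = f.a ↔ 3 * (if f.b = f.a then f.a else 2 * f.a - f.b).natAbs ≤
        N / (if f.b = f.a then f.a else 2 * f.a - f.b).natAbs) := by
  have hneg : -(N : ℤ) < 0 := by omega
  have hpos := f.pos hneg
  have hodd := odd_of_form hN f
  have hd := f.disc
  obtain ⟨hb, hac, htie⟩ := hf
  have main : ∀ u v : ℤ, u * v = N → 0 < u → u < v →
      (∀ l : ℕ, l.Prime → (l : ℤ) ∣ u → (l : ℤ) ∣ v → False) →
      u.natAbs ∈ coprimeSplit N ∧ N / u.natAbs = v.natAbs := fun u v huv hu hlt hcop => by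
    have h : u.natAbs * v.natAbs = N := by
      rw [← Int.natAbs_mul, huv, Int.natAbs_natCast]
    have hq : N / u.natAbs = v.natAbs := by
      rw [← h, Nat.mul_div_cancel_left _ (by omega)]
    refine ⟨Finset.mem_filter.2 ⟨Nat.mem_divisors.2 ⟨⟨_, h.symm⟩, by omega⟩, by omega, ?_⟩, hq⟩
    rw [hq]
    exact Nat.coprime_of_dvd fun l hl h1 h2 =>
      hcop l hl (Int.natCast_dvd.2 h1) (Int.natCast_dvd.2 h2)
  have two : ∀ l : ℕ, l.Prime → ∀ z : ℤ, (l : ℤ) ∣ 2 * z → (l : ℤ) ∣ N → (l : ℤ) ∣ z :=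
      fun l hl z h hlN => by
    refine ((Nat.prime_iff_prime_int.1 hl).dvd_or_dvd h).resolve_left fun h2 => ?_
    obtain rfl : l = 2 := (Nat.prime_dvd_prime_iff_eq hl Nat.prime_two).1
      (Int.natCast_dvd_natCast.1 (by exact_mod_cast h2))
    have := Int.natCast_dvd_natCast.1 hlN
    omega
  by_cases hba : f.b = f.a
  · rw [if_pos hba]
    rw [hba] at hd
    obtain ⟨h1, h2⟩ := main f.a (4 * f.c - f.a) (by linear_combination -hd) hpos
      (by linarith [show f.a ≠ 4 * f.c - f.a from fun e => hodd ⟨f.c, by linarith⟩])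
      fun l hl h1 h2 => f.prim l hl h1 (hba ▸ h1) (by
        have hlN : (l : ℤ) ∣ N := (show f.a * (4 * f.c - f.a) = N by linear_combination -hd) ▸
          h1.mul_right _
        refine two l hl _ (two l hl _ ?_ hlN) hlN
        rw [show 2 * (2 * f.c) = f.a + (4 * f.c - f.a) by ring]
        exact h1.add h2)
    refine ⟨h1, iff_of_true hba ?_⟩
    rw [h2]
    omega
  · rw [if_neg hba]
    have hlt : |f.b| < f.a := by
      refine hb.lt_of_ne fun e => hba ?_
      rw [← e, abs_of_nonneg (htie (Or.inl e))]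
    have hca : f.a = f.c := by
      rcases ha with h | h | h
      · exact absurd (h ▸ dvd_zero 2) hodd
      · omega
      · exact h
    have hb0 : 0 < f.b := lt_of_le_of_ne (htie (Or.inr hca)) fun e => hodd (e ▸ dvd_zero 2)
    rw [abs_of_pos hb0] at hlt
    rw [← hca] at hd
    obtain ⟨h1, h2⟩ := main (2 * f.a - f.b) (2 * f.a + f.b) (by linear_combination -hd)
      (by linarith) (by linarith) fun l hl h1 h2 => by
        have hlN : (l : ℤ) ∣ N := (show (2 * f.a - f.b) * (2 * f.a + f.b) = N by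
          linear_combination -hd) ▸ h1.mul_right _
        have hla : (l : ℤ) ∣ f.a := by
          refine two l hl _ (two l hl _ ?_ hlN) hlN
          rw [show 2 * (2 * f.a) = (2 * f.a - f.b) + (2 * f.a + f.b) by ring]
          exact h1.add h2
        exact f.prim l hl hla ((dvd_add_right (hla.mul_left 2)).1 h2) (hca ▸ hla)
    refine ⟨h1, iff_of_false hba ?_⟩
    rw [h2]
    omega

theorem card_amb_odd :
    Nat.card {f : Form (-(N : ℤ)) // Reduced f ∧ Ambiguous f} = (coprimeSplit N).card := by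
  rw [← Nat.card_eq_finsetCard]
  refine Nat.card_eq_of_bijective (fun f => ⟨_, (split_of_form hN f.2.1 f.2.2).1⟩)
    ⟨fun f g h => ?_, fun u => ?_⟩
  · have h' := congrArg Subtype.val h
    simp only at h'
    obtain ⟨hu, hf⟩ := split_of_form hN f.2.1 f.2.2
    obtain ⟨-, hg⟩ := split_of_form hN g.2.1 g.2.2
    rw [← h', ← hf] at hg
    have hneg : -(N : ℤ) < 0 := by omega
    have pf := f.1.pos hneg
    have pg := g.1.pos hneg
    have bf := abs_le.1 f.2.1.1
    have bg := abs_le.1 g.2.1.1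
    have df := f.1.disc
    have dg := g.1.disc
    apply Subtype.ext
    by_cases e : f.1.b = f.1.a
    · rw [if_pos e, if_pos (hg.2 e)] at h'
      have ea : f.1.a = g.1.a := by omega
      exact eq_of_ab hneg ea (by rw [e, hg.2 e, ea])
    · have e' : ¬g.1.b = g.1.a := fun k => e (hg.1 k)
      have cf : f.1.a = f.1.c := (f.2.2.resolve_left fun k => odd_of_form hN _ (k ▸ dvd_zero 2))
        |>.resolve_left fun k => e (by rw [← k, abs_of_nonneg (f.2.1.2.2 (Or.inl k))])
      have cg : g.1.a = g.1.c := (g.2.2.resolve_left fun k => odd_of_form hN _ (k ▸ dvd_zero 2))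
        |>.resolve_left fun k => e' (by rw [← k, abs_of_nonneg (g.2.1.2.2 (Or.inl k))])
      rw [if_neg e, if_neg e'] at h'
      rw [← cf] at df
      rw [← cg] at dg
      have hu' : (2 : ℤ) * f.1.a - f.1.b = 2 * g.1.a - g.1.b := by omega
      have hne : (0 : ℤ) < 2 * f.1.a - f.1.b := by omega
      have hv : 2 * f.1.a + f.1.b = 2 * g.1.a + g.1.b := by
        refine mul_left_cancel₀ hne.ne' ?_
        conv_rhs => rw [hu']
        linear_combination dg - df
      exact eq_of_ab hneg (by omega) (by omega)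
  · obtain ⟨f, hf, hu⟩ := exists_form hN u.2
    exact ⟨⟨f, hf⟩, Subtype.ext hu⟩

end Odd

theorem card_amb_even {n : ℕ} (hn : 1 < n) :
    Nat.card {f : Form (-4 * (n : ℤ)) // Reduced f ∧ Ambiguous f} =
      (coprimeSplit n).card + (evenSplit n).card := by
  have hneg : -4 * (n : ℤ) < 0 := by omega
  have hM : 4 * n < 3 * (2 * n + 1) ^ 2 := by nlinarith
  rw [← card_ambSet hn hM, ← Nat.card_eq_finsetCard]
  symm
  have hform : ∀ t ∈ ambSet n (2 * n), ∃ f : Form (-4 * (n : ℤ)), (Reduced f ∧ Ambiguous f) ∧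
      f.a = t.1 ∧ f.b = 2 * t.2 := by
    intro t ht
    obtain ⟨hr, hamb⟩ := Finset.mem_filter.1 ht
    obtain ⟨ha, hd, hg, hb, hac, htie⟩ := (Finset.mem_filter.1 hr).2
    obtain ⟨c, hc⟩ := hd
    have ha' : (t.1 : ℤ) ≠ 0 := by omega
    rw [hc, Int.mul_ediv_cancel_left _ ha'] at hg
    rw [hc] at hac
    have hac' : (t.1 : ℤ) ≤ c := le_of_mul_le_mul_left hac (by omega)
    have iff_ac : (t.1 : ℤ) * t.1 = t.2 ^ 2 + n ↔ (t.1 : ℤ) = c := by
      rw [hc, mul_right_inj' ha']
    refine ⟨⟨t.1, 2 * t.2, c, by linear_combination 4 * hc, fun l hl h1 h2 h3 => ?_,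
      fun _ => by omega⟩, ⟨⟨?_, hac', fun h => ?_⟩, ?_⟩, rfl, rfl⟩
    · have h12 := Int.dvd_coe_gcd (Int.dvd_coe_gcd h1 h2) h3
      rw [hg, Nat.cast_one] at h12
      exact (Nat.prime_iff_prime_int.1 hl).not_dvd_one h12
    · show |2 * t.2| ≤ (t.1 : ℤ)
      rwa [abs_mul, abs_two]
    · show 0 ≤ 2 * t.2
      have := htie (by
        rcases h with h | h
        · exact Or.inl (by rwa [abs_mul, abs_two] at h)
        · exact Or.inr (iff_ac.2 h))
      linarith
    · rcases hamb with h | h | h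
      · exact Or.inl (by show 2 * t.2 = 0; linarith)
      · exact Or.inr (Or.inl (by show |2 * t.2| = (t.1 : ℤ); rwa [abs_mul, abs_two]))
      · exact Or.inr (Or.inr (iff_ac.1 h))
  choose F hF hFa hFb using hform
  refine Nat.card_eq_of_bijective (fun t => ⟨F t.1 t.2, hF t.1 t.2⟩) ⟨fun s t h => ?_, fun f => ?_⟩
  · have h' := congrArg Subtype.val h
    simp only at h'
    refine Subtype.ext (Prod.ext (Int.natCast_inj.1 ?_) (mul_left_cancel₀ two_ne_zero ?_))
    · rw [← hFa _ s.2, h', hFa _ t.2]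
    · rw [← hFb _ s.2, h', hFb _ t.2]
  · obtain ⟨⟨a, b, c, hd, hp, hpos⟩, ⟨hb, hac, htie⟩, hamb⟩ := f
    simp only at hb hac htie hamb
    have ha := hpos hneg
    obtain ⟨b', rfl⟩ : (2 : ℤ) ∣ b := Int.prime_two.dvd_of_dvd_pow (n := 2)
      ⟨2 * a * c - 2 * n, by linear_combination hd⟩
    obtain ⟨a', rfl⟩ : ∃ a' : ℕ, a = a' := ⟨a.natAbs, by omega⟩
    rw [abs_mul, abs_two] at hb htie
    have hc : b' ^ 2 + (n : ℤ) = a' * c := by linarith
    have iff_ac : (a' : ℤ) * a' = b' ^ 2 + n ↔ (a' : ℤ) = c := by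
      rw [hc, mul_right_inj' (by omega : (a' : ℤ) ≠ 0)]
    have hg : Int.gcd (Int.gcd a' (2 * b')) c = 1 := by
      by_contra hne
      obtain ⟨l, hl, hld⟩ := Nat.exists_prime_and_dvd hne
      have hl' : (l : ℤ) ∣ ((Int.gcd (Int.gcd a' (2 * b')) c : ℕ) : ℤ) :=
        Int.natCast_dvd_natCast.2 hld
      exact hp l hl ((hl'.trans (Int.gcd_dvd_left _ _)).trans (Int.gcd_dvd_left _ _))
        ((hl'.trans (Int.gcd_dvd_left _ _)).trans (Int.gcd_dvd_right _ _))
        (hl'.trans (Int.gcd_dvd_right _ _))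
    have hred : IsRed n a' b' := by
      refine ⟨by omega, ⟨c, hc⟩, ?_, hb, ?_, fun h => ?_⟩
      · rwa [hc, Int.mul_ediv_cancel_left _ (by omega : (a' : ℤ) ≠ 0)]
      · rw [hc]
        exact mul_le_mul_of_nonneg_left hac (Int.natCast_nonneg _)
      · have := htie (h.imp id iff_ac.1)
        linarith
    have : NeZero n := ⟨by omega⟩
    have hmem : (a', b') ∈ ambSet n (2 * n) := Finset.mem_filter.2 ⟨mem_redSet hM hred, by
      rcases hamb with h | h | h
      · exact Or.inl (by simpa using h)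
      · exact Or.inr (Or.inl (by rwa [abs_mul, abs_two] at h))
      · exact Or.inr (Or.inr (iff_ac.2 h))⟩
    exact ⟨⟨(a', b'), hmem⟩, Subtype.ext (eq_of_ab hneg (hFa _ hmem) (hFb _ hmem))⟩

theorem card_amb_four : Nat.card {f : Form (-4) // Reduced f ∧ Ambiguous f} = 1 := by
  have hneg : (-4 : ℤ) < 0 := by norm_num
  let e : Form (-4) := ⟨1, 0, 1, by norm_num,
    fun l hl h1 _ _ => (Nat.prime_iff_prime_int.1 hl).not_dvd_one h1, fun _ => one_pos⟩
  have he : Reduced e ∧ Ambiguous e := ⟨⟨by simp [e], le_rfl, fun _ => le_rfl⟩, Or.inl rfl⟩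
  refine Nat.card_eq_one_iff_unique.2 ⟨⟨fun f g => Subtype.ext ?_⟩, ⟨e, he⟩⟩
  have key : ∀ f : {f : Form (-4) // Reduced f ∧ Ambiguous f}, f.1.a = 1 ∧ f.1.b = 0 := by
    rintro ⟨⟨a, b, c, hd, hp, hpos⟩, ⟨hb, hac, htie⟩, -⟩
    simp only at hb hac htie ⊢
    have ha := hpos hneg
    have hb2 : b ^ 2 ≤ a ^ 2 := by rw [← sq_abs b]; exact pow_le_pow_left₀ (abs_nonneg b) hb 2
    have h1 : a = 1 := by nlinarith
    subst h1
    obtain ⟨hb1, hb2⟩ := abs_le.1 hb
    refine ⟨rfl, ?_⟩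
    interval_cases b <;> omega
  exact eq_of_ab hneg ((key f).1.trans (key g).1.symm) ((key f).2.trans (key g).2.symm)

theorem card_amb {D : ℤ} (hD : D < 0) (hD4 : D % 4 = 0 ∨ D % 4 = 1) :
    Nat.card {f : Form D // Reduced f ∧ Ambiguous f} = 2 ^ (genusNumber D - 1) := by
  rcases hD4 with h | h
  · obtain ⟨n, rfl⟩ : ∃ n : ℕ, D = -4 * (n : ℤ) := ⟨(-D / 4).natAbs, by omega⟩
    rcases (show n = 1 ∨ 1 < n by omega) with rfl | hn
    · rw [show genusNumber (-4 * ((1 : ℕ) : ℤ)) = 1 by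
        rw [genusNumber, if_neg (by norm_num), if_neg (by norm_num)]
        simp [show (4 : ℕ).primeFactors = {2} by
          rw [show 4 = 2 ^ 2 by norm_num, Nat.primeFactors_prime_pow two_ne_zero Nat.prime_two]]]
      exact card_amb_four
    rw [card_amb_even hn, splits_total hn]
    congr 2
    have hp : (-4 * (n : ℤ)).natAbs.primeFactors.erase 2 = n.primeFactors.erase 2 := by
      rw [show (-4 * (n : ℤ)).natAbs = 2 ^ 2 * n by omega, Nat.primeFactors_mul (by norm_num)
        (by omega), Nat.primeFactors_prime_pow two_ne_zero Nat.prime_two]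
      ext p
      simp only [Finset.mem_erase, Finset.mem_union, Finset.mem_singleton]
      tauto
    rw [genusMu, genusNumber, hp]
    split_ifs <;> omega
  · obtain ⟨N, rfl⟩ : ∃ N : ℕ, D = -(N : ℤ) := ⟨D.natAbs, by omega⟩
    have hN : N % 4 = 3 := by omega
    rw [card_amb_odd hN, genusNumber, if_pos (Or.inl h), Int.natAbs_neg, Int.natAbs_natCast]
    have h2 := two_mul_card_coprimeSplit (show 1 < N by omega)
    rw [Finset.erase_eq_of_notMem fun hm => by
      have := Nat.dvd_of_mem_primeFactors hm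
      omega]
    have hpos : 0 < N.primeFactors.card := Finset.card_pos.2 ⟨N.minFac, Nat.mem_primeFactors.2
      ⟨Nat.minFac_prime (by omega), N.minFac_dvd, by omega⟩⟩
    obtain ⟨k, hk⟩ : ∃ k, N.primeFactors.card = k + 1 := ⟨_, (Nat.sub_add_cancel hpos).symm⟩
    rw [hk, pow_succ] at h2
    rw [hk, Nat.add_sub_cancel]
    omega

end FA.GenusCount
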