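import Fermat.Agent.GaussDuplication.Main

/-!
# Reduced positive forms, and the classes of order two

For `D < 0` every class contains exactly one form with `|b| ≤ a ≤ c` and `b ≥ 0` on the boundary;
the class is its own inverse exactly when that form is ambiguous.
-/

set_option autoImplicit false

noncomputable section

namespace FA.GenusCount

open FA.GaussComposition

variable {D : ℤ}

/-- A reduced form. -/
def Reduced (f : Form D) : Prop :=
  |f.b| ≤ f.a ∧ f.a ≤ f.c ∧ ((|f.b| = f.a ∨ f.a = f.c) → 0 ≤ f.b)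

/-- An ambiguous form. -/
def Ambiguous (f : Form D) : Prop := f.b = 0 ∨ |f.b| = f.a ∨ f.a = f.c

variable (hD : D < 0)
include hD

theorem not_isSquare_of_neg : ¬IsSquare D := fun ⟨r, hr⟩ => by
  have := mul_self_nonneg r
  omega

theorem c_pos (f : Form D) : 0 < f.c := by
  simpa [Form.eval] using
    f.eval_pos (not_isSquare_of_neg hD) hD (isCoprime_one_right (x := (0 : ℤ)))

theorem eq_of_ab {f g : Form D} (ha : f.a = g.a) (hb : f.b = g.b) : f = g := by
  refine Form.ext ha hb (mul_left_cancel₀ (mul_ne_zero four_ne_zero (f.pos hD).ne') ?_)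
  have h2 := g.disc
  rw [← ha, ← hb] at h2
  linear_combination -f.disc + h2

/-- Every class contains a reduced form. -/
theorem exists_reduced_form (f : Form D) : ∃ g : Form D, g.cl = f.cl ∧ Reduced g := by
  obtain ⟨g, hg, hb, hac⟩ := exists_reduced (not_isSquare_of_neg hD) _ f rfl
  rw [abs_of_pos (g.pos hD)] at hb hac
  rw [abs_of_pos (c_pos hD g)] at hac
  by_cases hneg : (|g.b| = g.a ∨ g.a = g.c) ∧ g.b < 0
  swap
  · exact ⟨g, hg, hb, hac, fun h => by
      by_contra h'
      exact hneg ⟨h, not_le.1 h'⟩⟩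
  obtain ⟨h, hneg⟩ := hneg
  rw [abs_of_neg hneg] at h hb
  rcases h with h | h
  · obtain ⟨k, hk, hka, hkb⟩ := g.exists_transform (not_isSquare_of_neg hD)
      (p := 1) (q := 1) (r := 0) (s := 1) (by ring)
    have ea : k.a = g.a := by rw [hka, Form.eval]; ring
    have eb : k.b = g.a := by rw [hkb]; linarith
    have ec : k.c = g.c :=
      mul_left_cancel₀ (mul_ne_zero four_ne_zero (g.pos hD).ne') (by
        have h1 := k.disc
        rw [ea, eb, show g.a = -g.b by linarith] at h1
        rw [show g.a = -g.b by linarith]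
        have h2 := g.disc
        rw [show g.a = -g.b by linarith] at h2
        linear_combination h2 - h1)
    refine ⟨k, (Quot.sound hk).symm.trans hg, ?_⟩
    have := g.pos hD
    rw [Reduced, ea, eb, ec, abs_of_pos this]
    exact ⟨le_rfl, hac, fun _ => this.le⟩
  · obtain ⟨k, hk, hka, hkb⟩ := g.exists_transform (not_isSquare_of_neg hD)
      (p := 0) (q := -1) (r := 1) (s := 0) (by norm_num)
    have ea : k.a = g.a := by rw [hka, Form.eval, h]; ring
    have eb : k.b = -g.b := by rw [hkb]; ring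
    have ec : k.c = g.c :=
      mul_left_cancel₀ (mul_ne_zero four_ne_zero (g.pos hD).ne') (by
        have h1 := k.disc
        rw [ea, eb] at h1
        linear_combination g.disc - h1)
    refine ⟨k, (Quot.sound hk).symm.trans hg, ?_⟩
    rw [Reduced, ea, eb, ec, abs_of_pos (by linarith : 0 < -g.b)]
    exact ⟨hb, hac, fun _ => by linarith⟩

omit hD in
theorem le_eval_of_ne_zero {f : Form D} (hf : Reduced f) {x y : ℤ} (hx : x ≠ 0) (hy : y ≠ 0) :
    f.a - |f.b| + f.c ≤ f.eval x y := by
  obtain ⟨hb, hac, -⟩ := hf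
  have h1 : -(|f.b| * (|x| * |y|)) ≤ f.b * (x * y) := by
    rw [← abs_mul, ← abs_mul]
    exact neg_abs_le _
  have e : f.a * |x| ^ 2 - |f.b| * (|x| * |y|) + f.c * |y| ^ 2 ≤ f.eval x y := by
    rw [sq_abs, sq_abs, Form.eval, mul_assoc f.b x y]
    linarith
  refine le_trans ?_ e
  have hX : 1 ≤ |x| := Int.one_le_abs hx
  have hY : 1 ≤ |y| := Int.one_le_abs hy
  have hX2 : 1 ≤ |x| ^ 2 := one_le_pow₀ hX
  have hY2 : 1 ≤ |y| ^ 2 := one_le_pow₀ hY
  have hb0 := abs_nonneg f.b
  rcases le_total |y| |x| with h | h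
  · nlinarith [mul_nonneg (mul_nonneg hb0 (by linarith : 0 ≤ |x|)) (sub_nonneg.2 h),
      mul_nonneg (sub_nonneg.2 hb) (sub_nonneg.2 hX2)]
  · nlinarith [mul_nonneg (mul_nonneg hb0 (by linarith : 0 ≤ |y|)) (sub_nonneg.2 h),
      mul_nonneg (sub_nonneg.2 (hb.trans hac)) (sub_nonneg.2 hY2)]

theorem a_le_of_represents {f : Form D} (hf : Reduced f) {m : ℤ} (hm : m ≠ 0)
    (h : f.Represents m) : f.a ≤ m := by
  obtain ⟨x, y, rfl⟩ := h
  have hc := c_pos hD f
  have ha := f.pos hD
  rcases eq_or_ne y 0 with rfl | hy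
  · have hx : x ≠ 0 := by
      rintro rfl
      simp [Form.eval] at hm
    have : 1 ≤ x ^ 2 := by
      rw [← sq_abs]
      exact one_le_pow₀ (Int.one_le_abs hx)
    simp only [Form.eval]
    nlinarith
  rcases eq_or_ne x 0 with rfl | hx
  · have : 1 ≤ y ^ 2 := by
      rw [← sq_abs]
      exact one_le_pow₀ (Int.one_le_abs hy)
    simp only [Form.eval]
    nlinarith [hf.2.1]
  linarith [le_eval_of_ne_zero hf hx hy, hf.1, hf.2.1]

/-- A reduced form is determined by its class. -/
theorem reduced_eq {f g : Form D} (hf : Reduced f) (hg : Reduced g) (h : f.Equivalent g) :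
    f = g := by
  have ha := f.pos hD
  have haa : g.a = f.a := le_antisymm
    (a_le_of_represents hD hg ha.ne' ((h.represents_iff _).2 ⟨1, 0, by simp [Form.eval]⟩))
    (a_le_of_represents hD hf (g.pos hD).ne' ((h.represents_iff _).1 ⟨1, 0, by simp [Form.eval]⟩))
  refine eq_of_ab hD haa.symm ?_
  obtain ⟨p, q, r, s, hdet, hga, hgb, -⟩ := h
  obtain ⟨hfb, hfc, hft⟩ := hf
  obtain ⟨hgb', hgc, hgt⟩ := hg
  have hfbb := abs_le.1 hfb
  have hgbb := abs_le.1 hgb'
  rw [haa] at hgbb
  rcases eq_or_ne r 0 with rfl | hr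
  · have hps : p * s = 1 := by linear_combination hdet
    have e : g.b = f.b + 2 * f.a * (p * q) := by rw [hgb]; linear_combination f.b * hps
    rcases lt_trichotomy (p * q) 0 with hk | hk | hk
    · have : f.a * (p * q) ≤ -f.a := by nlinarith
      have h1 : f.b = f.a := by linarith
      have h2 := hgt (Or.inl (by rw [haa, show g.b = -f.a by linarith, abs_neg, abs_of_pos ha]))
      linarith
    · rw [e, hk, mul_zero, add_zero]
    · have : f.a ≤ f.a * (p * q) := by nlinarith
      have h1 : f.b = -f.a := by linarith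
      have h2 := hft (Or.inl (by rw [h1, abs_neg, abs_of_pos ha]))
      linarith
  rcases eq_or_ne p 0 with rfl | hp
  · have hqr : q * r = -1 := by linear_combination -hdet
    have hr2 : r ^ 2 = 1 := by
      rcases Int.eq_one_or_neg_one_of_mul_eq_neg_one' hqr with ⟨-, e⟩ | ⟨-, e⟩ <;> rw [e] <;>
        norm_num
    have hac : f.a = f.c := by
      rw [haa, Form.eval] at hga
      linear_combination hga + f.c * hr2
    have hb0 := hft (Or.inr hac)
    have e : g.b = -f.b + 2 * f.a * (r * s) := by rw [hgb, hac]; linear_combination f.b * hqr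
    rcases lt_trichotomy (r * s) 0 with hk | hk | hk
    · have : f.a * (r * s) ≤ -f.a := by nlinarith
      linarith
    · rw [hk, mul_zero, add_zero] at e
      have hcc : g.a = g.c := by
        refine mul_left_cancel₀ (mul_ne_zero four_ne_zero ha.ne') ?_
        have h1 := g.disc
        rw [e, haa] at h1
        rw [haa]
        linear_combination h1 - f.disc + 4 * f.a * hac
      have := hgt (Or.inr hcc)
      omega
    · have : f.a ≤ f.a * (r * s) := by nlinarith
      linarith
  have hle := le_eval_of_ne_zero (f := f) ⟨hfb, hfc, hft⟩ hp hr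
  rw [← hga, haa] at hle
  have hac : f.a = f.c := by linarith
  have hb0 := hft (Or.inr hac)
  rw [abs_of_nonneg hb0] at hle
  have hfe : f.b = f.a := by linarith
  have h1 := g.disc
  have h2 := f.disc
  rw [haa] at h1
  rw [← hac, hfe] at h2
  have hsq : f.a * f.a ≤ g.b * g.b := by nlinarith [mul_le_mul_of_nonneg_left (haa ▸ hgc) ha.le]
  have habs : |g.b| = f.a := le_antisymm (haa ▸ hgb') (by
    by_contra hlt
    nlinarith [abs_nonneg g.b, abs_mul_abs_self g.b, not_le.1 hlt])
  rw [hfe, ← habs, abs_of_nonneg (hgt (Or.inl (habs.trans haa.symm)))]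

/-- A class is its own inverse exactly when its reduced form is ambiguous. -/
theorem sq_eq_one_iff {μ : FormClass D → FormClass D → FormClass D} (hμ : IsComposition μ)
    (e : Form D) (he : e.a = 1) {f : Form D} (hf : Reduced f) :
    μ f.cl f.cl = e.cl ↔ Ambiguous f := by
  have hns := not_isSquare_of_neg hD
  obtain ⟨G, rfl, h1, hinv, -⟩ := GaussDuplication.exists_commGroup hns hμ f
  show f.cl * f.cl = e.cl ↔ _
  rw [h1 e he, mul_eq_one_iff_eq_inv, ← hinv f f.opp rfl rfl rfl, cl_eq_iff hns]
  constructor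
  · intro h
    by_contra hne
    simp only [Ambiguous, not_or] at hne
    obtain ⟨h0, h1, h2⟩ := hne
    have hr : Reduced f.opp := by
      rw [Reduced, Form.opp, abs_neg]
      exact ⟨hf.1, hf.2.1, fun h => absurd h (not_or.2 ⟨h1, h2⟩)⟩
    have := congrArg Form.b (reduced_eq hD hf hr h)
    simp only [Form.opp] at this
    omega
  · rintro (h | h | h)
    · exact ⟨1, 0, 0, 1, by ring, by simp [Form.eval, Form.opp], by simp [Form.opp, h],
        by simp [Form.eval, Form.opp]⟩
    · have hb : f.b = f.a := by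
        rw [← h, abs_of_nonneg (hf.2.2 (Or.inl h))]
      exact ⟨1, -1, 0, 1, by ring, by simp [Form.eval, Form.opp],
        by simp only [Form.opp]; rw [hb]; ring, by simp only [Form.eval, Form.opp]; rw [hb]; ring⟩
    · exact ⟨0, -1, 1, 0, by norm_num, by simp [Form.eval, Form.opp, h],
        by simp only [Form.opp]; ring, by simp [Form.eval, Form.opp, h]⟩

theorem card_sq_eq_one {μ : FormClass D → FormClass D → FormClass D} (hμ : IsComposition μ)
    (e : Form D) (he : e.a = 1) :
    Nat.card {x : FormClass D // μ x x = e.cl} =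
      Nat.card {f : Form D // Reduced f ∧ Ambiguous f} := by
  refine (Nat.card_eq_of_bijective (fun f => ⟨f.1.cl, (sq_eq_one_iff hD hμ e he f.2.1).2 f.2.2⟩)
    ⟨fun f g h => Subtype.ext (reduced_eq hD f.2.1 g.2.1
      ((cl_eq_iff (not_isSquare_of_neg hD)).1 (congrArg Subtype.val h))), fun x => ?_⟩).symm
  obtain ⟨f, hf⟩ := Quot.exists_rep x.1
  obtain ⟨g, hg, hgr⟩ := exists_reduced_form hD f
  have he' : g.cl = x.1 := hg.trans hf
  exact ⟨⟨g, hgr, (sq_eq_one_iff hD hμ e he hgr).1 (by rw [he']; exact x.2)⟩, Subtype.ext he'⟩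

end FA.GenusCount
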